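import Mathlib

/-!
# MP3-zero, leaf C4b: the sum over the nonzero points of a cyclic group
-/

set_option autoImplicit false

namespace Fermat.Agent.EMZ

theorem finsum_nz_zmultiples {G M : Type*} [AddGroup G] [AddCommMonoid M] {Q : G} {p : ℕ}
    (hp : 0 < p) (hQ : addOrderOf Q = p) (F : G → M) :
    ∑ᶠ P ∈ {P : G | P ∈ (AddSubgroup.zmultiples Q : Set G) ∧ P ≠ 0}, F P
      = ∑ i ∈ Finset.Ico 1 p, F (i • Q) := by
  classical
  have hfin : IsOfFinAddOrder Q := by
    rw [← addOrderOf_pos_iff, hQ]; exact hp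
  rw [← finsum_mem_coe_finset (fun i => F (i • Q)) (Finset.Ico 1 p)]
  symm
  refine finsum_mem_eq_of_bijOn (fun i : ℕ => i • Q) ⟨?_, ?_, ?_⟩ (fun _ _ => rfl)
  · intro i hi
    rw [Finset.coe_Ico, Set.mem_Ico] at hi
    refine ⟨AddSubgroup.nsmul_mem_zmultiples Q i, ?_⟩
    intro h0
    have := addOrderOf_dvd_of_nsmul_eq_zero h0
    rw [hQ] at this
    exact absurd (Nat.le_of_dvd (by omega) this) (by omega)
  · intro i hi j hj hij
    rw [Finset.coe_Ico, Set.mem_Ico] at hi hj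
    exact nsmul_injOn_Iio_addOrderOf (by rw [Set.mem_Iio, hQ]; exact hi.2)
      (by rw [Set.mem_Iio, hQ]; exact hj.2) hij
  · rintro P ⟨hP, hP0⟩
    rw [SetLike.mem_coe, hfin.mem_zmultiples_iff_mem_range_addOrderOf, Finset.mem_image] at hP
    obtain ⟨i, hi, rfl⟩ := hP
    rw [Finset.mem_range, hQ] at hi
    refine ⟨i, ?_, rfl⟩
    rw [Finset.coe_Ico, Set.mem_Ico]
    refine ⟨?_, hi⟩
    rcases Nat.eq_zero_or_pos i with h0 | h0
    · exact absurd (by rw [h0, zero_smul]) hP0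
    · exact h0

end Fermat.Agent.EMZ
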