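import Mathlib

/-!
# MP3-zero, leaf Z3a: a root-of-unity sum

`ζ` a primitive `n`-th root of unity in a field `k`, `X_i = ζ^i / (1 - ζ^i)^2`.  Then
`120 * ∑_{0 < i < n} (6 X_i^2 + X_i) = n^4 - 1`  (any characteristic).

Proof: `z_i = 1/(1 - ζ^i)` are the roots of `X^n - (X-1)^n` (degree `n - 1`, leading coefficient `n`),
so `n e_r(z) = C(n, r+1)` (Vieta); `X_i = z_i^2 - z_i`; Newton's identities for `p_1, .., p_4`;
an integer identity between binomial coefficients.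
-/

set_option autoImplicit false

open Polynomial Finset

namespace Fermat.Agent.EMZ

namespace RootSumAux

section IntIdentity

/-- `C(n, k+1) (k+1) = C(n, k) (n - k)` in `ℚ`. -/
theorem choose_succ_rat (n k : ℕ) :
    (n.choose (k + 1) : ℚ) * ((k : ℚ) + 1) = (n.choose k : ℚ) * ((n : ℚ) - k) := by
  have h := Nat.choose_succ_right_eq n k
  rcases le_or_gt k n with hk | hk
  · have := congrArg (Nat.cast : ℕ → ℚ) h
    push_cast [Nat.cast_sub hk] at this
    exact this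
  · rw [Nat.choose_eq_zero_of_lt hk, Nat.choose_eq_zero_of_lt (by omega)]
    simp

/-- The integer identity behind the root-of-unity sum. -/
theorem rootSum_int (n : ℕ) :
    (120 : ℤ) * (6 * ((n.choose 2 : ℤ) ^ 4 - 4 * n * (n.choose 2 : ℤ) ^ 2 * n.choose 3
          + 4 * (n : ℤ) ^ 2 * n.choose 2 * n.choose 4 + 2 * (n : ℤ) ^ 2 * (n.choose 3 : ℤ) ^ 2
          - 4 * (n : ℤ) ^ 3 * n.choose 5)
        - 12 * n * ((n.choose 2 : ℤ) ^ 3 - 3 * n * n.choose 2 * n.choose 3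
          + 3 * (n : ℤ) ^ 2 * n.choose 4)
        + 7 * (n : ℤ) ^ 2 * ((n.choose 2 : ℤ) ^ 2 - 2 * n * n.choose 3)
        - (n : ℤ) ^ 3 * n.choose 2)
      = (n : ℤ) ^ 4 * ((n : ℤ) ^ 4 - 1) := by
  have h2 := choose_succ_rat n 1
  have h3 := choose_succ_rat n 2
  have h4 := choose_succ_rat n 3
  have h5 := choose_succ_rat n 4
  simp only [Nat.choose_one_right, Nat.cast_one, Nat.cast_ofNat, Nat.reduceAdd] at h2 h3 h4 h5
  norm_num at h2 h3 h4 h5
  have e2 : (n.choose 2 : ℚ) = n * (n - 1) / 2 := by linarith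
  have e3 : (n.choose 3 : ℚ) = n * (n - 1) * (n - 2) / 6 := by
    rw [e2] at h3; linarith
  have e4 : (n.choose 4 : ℚ) = n * (n - 1) * (n - 2) * (n - 3) / 24 := by
    rw [e3] at h4; linarith
  have e5 : (n.choose 5 : ℚ) = n * (n - 1) * (n - 2) * (n - 3) * (n - 4) / 120 := by
    rw [e4] at h5; linarith
  have : (120 : ℚ) * (6 * ((n.choose 2 : ℚ) ^ 4 - 4 * n * (n.choose 2 : ℚ) ^ 2 * n.choose 3
          + 4 * (n : ℚ) ^ 2 * n.choose 2 * n.choose 4 + 2 * (n : ℚ) ^ 2 * (n.choose 3 : ℚ) ^ 2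
          - 4 * (n : ℚ) ^ 3 * n.choose 5)
        - 12 * n * ((n.choose 2 : ℚ) ^ 3 - 3 * n * n.choose 2 * n.choose 3
          + 3 * (n : ℚ) ^ 2 * n.choose 4)
        + 7 * (n : ℚ) ^ 2 * ((n.choose 2 : ℚ) ^ 2 - 2 * n * n.choose 3)
        - (n : ℚ) ^ 3 * n.choose 2)
      = (n : ℚ) ^ 4 * ((n : ℚ) ^ 4 - 1) := by
    rw [e2, e3, e4, e5]
    ring
  exact_mod_cast this

end IntIdentity

section Newton

variable {k : Type*} [CommRing k] {m : ℕ} (z : Fin m → k)

/-- elementary symmetric functions of the family -/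
noncomputable def esF (r : ℕ) : k := ((Finset.univ : Finset (Fin m)).val.map z).esymm r

theorem aeval_esymm_esF (r : ℕ) :
    MvPolynomial.aeval z (MvPolynomial.esymm (Fin m) k r) = esF z r :=
  MvPolynomial.aeval_esymm_eq_multiset_esymm (Fin m) k r z

theorem aeval_psum_sum (r : ℕ) :
    MvPolynomial.aeval z (MvPolynomial.psum (Fin m) k r) = ∑ i, z i ^ r := by
  simp [MvPolynomial.psum]

theorem esF_zero : esF z 0 = 1 := by
  simp [esF, Multiset.esymm]

theorem newton1 : ∑ i, z i = esF z 1 := by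
  have h := MvPolynomial.mul_esymm_eq_sum (Fin m) k 1
  rw [show (antidiagonal 1).filter (fun a : ℕ × ℕ => a.1 < 1) = {(0, 1)} from by decide,
    Finset.sum_singleton] at h
  have h' := congrArg (MvPolynomial.aeval z) h
  simp only [map_mul, map_pow, map_neg, map_one, map_natCast, aeval_esymm_esF,
    aeval_psum_sum, esF_zero] at h'
  simp only [pow_one] at h' ⊢
  linear_combination -h'

theorem newton2 : ∑ i, z i ^ 2 = esF z 1 * ∑ i, z i - 2 * esF z 2 := by
  have h := MvPolynomial.mul_esymm_eq_sum (Fin m) k 2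
  rw [show (antidiagonal 2).filter (fun a : ℕ × ℕ => a.1 < 2) = {(0, 2), (1, 1)} from by decide,
    Finset.sum_pair (by decide)] at h
  have h' := congrArg (MvPolynomial.aeval z) h
  simp only [map_mul, map_pow, map_neg, map_one, map_add, map_natCast, aeval_esymm_esF,
    aeval_psum_sum, esF_zero] at h'
  simp only [pow_one] at h' ⊢
  push_cast at h'
  linear_combination h'

theorem newton3 : ∑ i, z i ^ 3 = esF z 1 * ∑ i, z i ^ 2 - esF z 2 * ∑ i, z i + 3 * esF z 3 := by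
  have h := MvPolynomial.mul_esymm_eq_sum (Fin m) k 3
  rw [show (antidiagonal 3).filter (fun a : ℕ × ℕ => a.1 < 3) = {(0, 3), (1, 2), (2, 1)}
      from by decide,
    Finset.sum_insert (by decide), Finset.sum_pair (by decide)] at h
  have h' := congrArg (MvPolynomial.aeval z) h
  simp only [map_mul, map_pow, map_neg, map_one, map_add, map_natCast, aeval_esymm_esF,
    aeval_psum_sum, esF_zero] at h'
  simp only [pow_one] at h' ⊢
  push_cast at h'
  linear_combination -h'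

theorem newton4 : ∑ i, z i ^ 4 = esF z 1 * ∑ i, z i ^ 3 - esF z 2 * ∑ i, z i ^ 2
    + esF z 3 * ∑ i, z i - 4 * esF z 4 := by
  have h := MvPolynomial.mul_esymm_eq_sum (Fin m) k 4
  rw [show (antidiagonal 4).filter (fun a : ℕ × ℕ => a.1 < 4)
        = {(0, 4), (1, 3), (2, 2), (3, 1)} from by decide,
    Finset.sum_insert (by decide), Finset.sum_insert (by decide),
    Finset.sum_pair (by decide)] at h
  have h' := congrArg (MvPolynomial.aeval z) h
  simp only [map_mul, map_pow, map_neg, map_one, map_add, map_natCast, aeval_esymm_esF,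
    aeval_psum_sum, esF_zero] at h'
  simp only [pow_one] at h' ⊢
  push_cast at h'
  linear_combination h'

end Newton

section Roots

variable {k : Type*} [Field k]

/-- `z_j = 1/(1 - ζ^(j+1))`, `j < n - 1`. -/
noncomputable def zF (ζ : k) (n : ℕ) : Fin (n - 1) → k := fun j => (1 - ζ ^ ((j : ℕ) + 1))⁻¹

/-- `X^n - (X-1)^n`. -/
noncomputable def fP (k : Type*) [Field k] (n : ℕ) : k[X] := X ^ n - (X + C (-1)) ^ n

theorem coeff_fP_of_lt {n j : ℕ} (hj : j < n) :
    (fP k n).coeff j = -((-1) ^ (n - j) * (n.choose j : k)) := by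
  rw [fP, coeff_sub, coeff_X_pow, if_neg (Nat.ne_of_lt hj), coeff_X_add_C_pow, zero_sub]

theorem coeff_fP_of_le {n j : ℕ} (hj : n ≤ j) : (fP k n).coeff j = 0 := by
  rw [fP, coeff_sub, coeff_X_pow, coeff_X_add_C_pow]
  rcases Nat.eq_or_lt_of_le hj with rfl | h
  · simp
  · rw [if_neg (Nat.ne_of_gt h), Nat.choose_eq_zero_of_lt h]
    simp

theorem coeff_fP_pred {n : ℕ} (hn : 0 < n) : (fP k n).coeff (n - 1) = n := by
  rw [coeff_fP_of_lt (by omega), show n - (n - 1) = 1 by omega, Nat.choose_symm (by omega : 1 ≤ n),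
    Nat.choose_one_right]
  ring

theorem natDegree_fP {n : ℕ} (hn : 0 < n) (h0 : (n : k) ≠ 0) : (fP k n).natDegree = n - 1 := by
  apply le_antisymm
  · rw [natDegree_le_iff_coeff_eq_zero]
    intro N hN
    exact coeff_fP_of_le (by omega)
  · apply le_natDegree_of_ne_zero
    rw [coeff_fP_pred hn]
    exact h0

theorem leadingCoeff_fP {n : ℕ} (hn : 0 < n) (h0 : (n : k) ≠ 0) : (fP k n).leadingCoeff = n := by
  rw [leadingCoeff, natDegree_fP hn h0, coeff_fP_pred hn]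

theorem fP_ne_zero {n : ℕ} (hn : 0 < n) (h0 : (n : k) ≠ 0) : fP k n ≠ 0 := by
  intro h
  have := coeff_fP_pred (k := k) hn
  rw [h, coeff_zero] at this
  exact h0 this.symm

variable {n : ℕ} {ζ : k}

theorem one_sub_pow_ne_zero (hζ : IsPrimitiveRoot ζ n) (j : Fin (n - 1)) :
    1 - ζ ^ ((j : ℕ) + 1) ≠ 0 := by
  have hj := j.2
  have := hζ.pow_ne_one_of_pos_of_lt (Nat.succ_ne_zero j) (by omega : (j : ℕ) + 1 < n)
  intro h
  exact this (sub_eq_zero.1 h).symm

theorem zF_injective (hζ : IsPrimitiveRoot ζ n) : Function.Injective (zF ζ n) := by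
  intro i j h
  simp only [zF] at h
  have h1 := inv_injective h
  have h2 : ζ ^ ((i : ℕ) + 1) = ζ ^ ((j : ℕ) + 1) := by linear_combination -h1
  have hi := i.2
  have hj := j.2
  have := hζ.pow_inj (by omega) (by omega) h2
  exact Fin.ext (by omega)

theorem isRoot_zF (hζ : IsPrimitiveRoot ζ n) (j : Fin (n - 1)) : (fP k n).IsRoot (zF ζ n j) := by
  have h1 := one_sub_pow_ne_zero hζ j
  have hw : (ζ ^ ((j : ℕ) + 1)) ^ n = 1 := by
    rw [← pow_mul, mul_comm, pow_mul, hζ.pow_eq_one, one_pow]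
  have e : zF ζ n j - 1 = ζ ^ ((j : ℕ) + 1) * zF ζ n j := by
    simp only [zF]
    field_simp
    ring
  rw [IsRoot, fP, eval_sub, eval_pow, eval_pow, eval_add, eval_X, eval_C, ← sub_eq_add_neg, e,
    mul_pow, hw, one_mul, sub_self]

theorem roots_fP (hζ : IsPrimitiveRoot ζ n) (hn : 0 < n) (h0 : (n : k) ≠ 0) :
    (fP k n).roots = (Finset.univ : Finset (Fin (n - 1))).val.map (zF ζ n) := by
  symm
  apply Multiset.eq_of_le_of_card_le
  · rw [Multiset.le_iff_subset ((Finset.univ : Finset (Fin (n - 1))).nodup.map (zF_injective hζ))]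
    intro x hx
    obtain ⟨j, -, rfl⟩ := Multiset.mem_map.1 hx
    exact (mem_roots (fP_ne_zero hn h0)).2 (isRoot_zF hζ j)
  · refine (card_roots' _).trans ?_
    rw [natDegree_fP hn h0]
    simp

theorem card_roots_fP (hζ : IsPrimitiveRoot ζ n) (hn : 0 < n) (h0 : (n : k) ≠ 0) :
    Multiset.card (fP k n).roots = (fP k n).natDegree := by
  rw [roots_fP hζ hn h0, natDegree_fP hn h0]
  simp

/-- **Vieta**: `n e_r(z) = C(n, r+1)`. -/
theorem natCast_mul_esF (hζ : IsPrimitiveRoot ζ n) (hn : 0 < n) (h0 : (n : k) ≠ 0) (r : ℕ) :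
    (n : k) * esF (zF ζ n) r = (n.choose (r + 1) : k) := by
  rcases Nat.lt_or_ge (n - 1) r with hr | hr
  · rw [Nat.choose_eq_zero_of_lt (by omega), Nat.cast_zero, esF, Multiset.esymm,
      Multiset.powersetCard_eq_empty _ (by simpa using hr)]
    simp
  · have h := coeff_eq_esymm_roots_of_card (card_roots_fP hζ hn h0)
      (k := n - 1 - r) (by rw [natDegree_fP hn h0]; omega)
    rw [natDegree_fP hn h0, leadingCoeff_fP hn h0, roots_fP hζ hn h0,
      coeff_fP_of_lt (by omega), show n - (n - 1 - r) = r + 1 by omega,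
      show n - 1 - (n - 1 - r) = r by omega,
      show n - 1 - r = n - (r + 1) by omega, Nat.choose_symm (by omega : r + 1 ≤ n)] at h
    have hs : ((-1 : k) ^ r) ≠ 0 := pow_ne_zero _ (neg_ne_zero.2 one_ne_zero)
    apply mul_left_cancel₀ hs
    rw [esF]
    linear_combination -h

end Roots

end RootSumAux

section Main

open RootSumAux

variable {k : Type*} [Field k] {n : ℕ} {ζ : k}

theorem rootSum_term_eq (hζ : IsPrimitiveRoot ζ n) (j : Fin (n - 1)) :
    6 * (ζ ^ ((j : ℕ) + 1) / (1 - ζ ^ ((j : ℕ) + 1)) ^ 2) ^ 2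
        + ζ ^ ((j : ℕ) + 1) / (1 - ζ ^ ((j : ℕ) + 1)) ^ 2
      = 6 * zF ζ n j ^ 4 - 12 * zF ζ n j ^ 3 + 7 * zF ζ n j ^ 2 - zF ζ n j := by
  have h1 := one_sub_pow_ne_zero hζ j
  simp only [zF]
  field_simp
  ring

theorem rootSum_sum_Ico_eq_sum_fin (n : ℕ) (g : ℕ → k) :
    ∑ i ∈ Finset.Ico 1 n, g i = ∑ j : Fin (n - 1), g ((j : ℕ) + 1) := by
  rw [Finset.sum_Ico_eq_sum_range, Fin.sum_univ_eq_sum_range (fun i => g (i + 1)) (n - 1)]
  exact Finset.sum_congr rfl fun i _ => by rw [add_comm]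

/-- **Z3a**: the root-of-unity sum. -/
theorem rootSum (hζ : IsPrimitiveRoot ζ n) (hn : 0 < n) :
    120 * ∑ i ∈ Finset.Ico 1 n, (6 * (ζ ^ i / (1 - ζ ^ i) ^ 2) ^ 2 + ζ ^ i / (1 - ζ ^ i) ^ 2)
      = (n : k) ^ 4 - 1 := by
  have : NeZero n := ⟨hn.ne'⟩
  have h0 : (n : k) ≠ 0 := (hζ.neZero').out
  rw [rootSum_sum_Ico_eq_sum_fin n
    (fun i => 6 * (ζ ^ i / (1 - ζ ^ i) ^ 2) ^ 2 + ζ ^ i / (1 - ζ ^ i) ^ 2)]
  simp only [rootSum_term_eq hζ]
  rw [Finset.sum_sub_distrib, Finset.sum_add_distrib, Finset.sum_sub_distrib,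
    ← Finset.mul_sum, ← Finset.mul_sum, ← Finset.mul_sum]
  set z := zF ζ n with hz
  have he1 := natCast_mul_esF hζ hn h0 1
  have he2 := natCast_mul_esF hζ hn h0 2
  have he3 := natCast_mul_esF hζ hn h0 3
  have he4 := natCast_mul_esF hζ hn h0 4
  simp only [Nat.reduceAdd] at he1 he2 he3 he4
  rw [← hz] at he1 he2 he3 he4
  have hp1 : (n : k) * ∑ i, z i = (n.choose 2 : k) := by
    rw [newton1, he1]
  have hp2 : (n : k) ^ 2 * ∑ i, z i ^ 2
      = (n.choose 2 : k) ^ 2 - 2 * n * n.choose 3 := by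
    calc (n : k) ^ 2 * ∑ i, z i ^ 2
        = ((n : k) * esF z 1) * ((n : k) * ∑ i, z i) - 2 * n * ((n : k) * esF z 2) := by
          rw [newton2]; ring
      _ = _ := by rw [he1, hp1, he2]; ring
  have hp3 : (n : k) ^ 3 * ∑ i, z i ^ 3
      = (n.choose 2 : k) ^ 3 - 3 * n * n.choose 2 * n.choose 3 + 3 * (n : k) ^ 2 * n.choose 4 := by
    calc (n : k) ^ 3 * ∑ i, z i ^ 3
        = ((n : k) * esF z 1) * ((n : k) ^ 2 * ∑ i, z i ^ 2)
          - n * ((n : k) * esF z 2) * ((n : k) * ∑ i, z i)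
          + 3 * (n : k) ^ 2 * ((n : k) * esF z 3) := by
          rw [newton3]; ring
      _ = _ := by rw [he1, hp1, he2, hp2, he3]; ring
  have hp4 : (n : k) ^ 4 * ∑ i, z i ^ 4
      = (n.choose 2 : k) ^ 4 - 4 * n * (n.choose 2 : k) ^ 2 * n.choose 3
          + 4 * (n : k) ^ 2 * n.choose 2 * n.choose 4 + 2 * (n : k) ^ 2 * (n.choose 3 : k) ^ 2
          - 4 * (n : k) ^ 3 * n.choose 5 := by
    calc (n : k) ^ 4 * ∑ i, z i ^ 4
        = ((n : k) * esF z 1) * ((n : k) ^ 3 * ∑ i, z i ^ 3)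
          - n * ((n : k) * esF z 2) * ((n : k) ^ 2 * ∑ i, z i ^ 2)
          + (n : k) ^ 2 * ((n : k) * esF z 3) * ((n : k) * ∑ i, z i)
          - 4 * (n : k) ^ 3 * ((n : k) * esF z 4) := by
          rw [newton4]; ring
      _ = _ := by rw [he1, hp1, he2, hp2, he3, hp3, he4]; ring
  have key := congrArg (Int.cast : ℤ → k) (rootSum_int n)
  push_cast at key
  apply mul_left_cancel₀ (pow_ne_zero 4 h0)
  calc (n : k) ^ 4 * (120 * (6 * ∑ i, z i ^ 4 - 12 * ∑ i, z i ^ 3 + 7 * ∑ i, z i ^ 2 - ∑ i, z i))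
      = 120 * (6 * ((n : k) ^ 4 * ∑ i, z i ^ 4) - 12 * n * ((n : k) ^ 3 * ∑ i, z i ^ 3)
          + 7 * (n : k) ^ 2 * ((n : k) ^ 2 * ∑ i, z i ^ 2) - (n : k) ^ 3 * ((n : k) * ∑ i, z i)) := by
        ring
    _ = _ := by rw [hp4, hp3, hp2, hp1, key]

end Main

end Fermat.Agent.EMZ
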