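/-
Cluster E' (Mazur), seat MP3-zero (helper4), step Z2a: the zero component in nodal normal form.

`E` in nodal normal form at `A`: the points outside `E⁰` are exactly the node points; a torsion
point of order prime to the residue characteristic in `E⁰` is integral with nonsingular
reduction.
-/
import Mathlib
import Fermat.Agent.Lib.MultRed.E0Tors
import Fermat.Agent.Lib.MultRed.Main

set_option autoImplicit false
set_option linter.unusedSectionVars false

open WeierstrassCurve WeierstrassCurve.Affine

namespace Fermat.Agent.EMZ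

open Fermat.Agent.MultRed Fermat.Agent.EllRed IsLocalRing S05H5 S05H65 S05H75

variable {K : Type*} [Field K] [DecidableEq K] {A : ValuationSubring K} {E : Affine K} {α β : K}

/-- a node point is not in the zero component -/
theorem not_inE0v_of_isNodePt (nf : NodalNF A.valuation E α β) {P : E.Point}
    (hP : IsNodePt A.valuation P) : ¬ InE0v A P := by
  rcases P with _ | ⟨x, y, h⟩
  · exact absurd hP (fun h => h)
  · obtain ⟨hx, hy⟩ := hP
    rintro (hG | ⟨x', y', h', heq, -, hns⟩)
    · rcases hG with h0 | hlt
      · exact absurd h0 (Point.some_ne_zero h)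
      · rw [px_some] at hlt
        exact absurd hx (not_lt.mpr hlt.le)
    · simp only [Point.some.injEq] at heq
      obtain ⟨rfl, rfl⟩ := heq
      exact hns (singular_of_isNode nf hx hy)

/-- a point which is not a node point is in the zero component -/
theorem inE0v_of_not_isNodePt (nf : NodalNF A.valuation E α β) {P : E.Point}
    (hP : ¬ IsNodePt A.valuation P) : InE0v A P := by
  classical
  rw [inE0v_iff nf.intCoeff]
  exact nf.inE0_of_not_isNodePt hP

theorem isNodePt_iff_not_inE0v (nf : NodalNF A.valuation E α β) (P : E.Point) :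
    IsNodePt A.valuation P ↔ ¬ InE0v A P :=
  ⟨not_inE0v_of_isNodePt nf, fun h => by
    by_contra hn
    exact h (inE0v_of_not_isNodePt nf hn)⟩

/-- node point + point of the zero component = node point -/
theorem isNodePt_add (nf : NodalNF A.valuation E α β) {P Q : E.Point}
    (hP : IsNodePt A.valuation P) (hQ : ¬ IsNodePt A.valuation Q) :
    IsNodePt A.valuation (P + Q) := by
  by_contra hn
  have h1 := inE0v_of_not_isNodePt nf hn
  have h2 := inE0v_of_not_isNodePt nf hQ
  have h3 := inE0v_sub nf.intCoeff h1 h2
  rw [add_sub_cancel_right] at h3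
  exact not_inE0v_of_isNodePt nf hP h3

/-- the multiples of a point of the zero component are not node points -/
theorem not_isNodePt_of_mem_zmultiples (nf : NodalNF A.valuation E α β) {Q : E.Point}
    (hQ : ¬ IsNodePt A.valuation Q) {P : E.Point} (hP : P ∈ AddSubgroup.zmultiples Q) :
    ¬ IsNodePt A.valuation P := by
  classical
  intro hn
  apply not_inE0v_of_isNodePt nf hn
  have hQ' : InE0v A Q := inE0v_of_not_isNodePt nf hQ
  have hsub : AddSubgroup.zmultiples Q ≤ E0 (isReduction_redCurve nf.intCoeff) := by
    rw [AddSubgroup.zmultiples_le]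
    exact (inE0v_iff nf.intCoeff Q).mp hQ'
  exact (inE0v_iff nf.intCoeff P).mpr (hsub hP)

/-- a nonzero torsion point of the zero component, of order prime to the residue characteristic,
is integral with nonsingular reduction -/
theorem nsInt_of_torsion (nf : NodalNF A.valuation E α β) {n : ℕ}
    (hn : A.valuation (n : K) = 1) {P : E.Point} (hP0 : P ≠ 0) (hnP : n • P = 0)
    (hP : ¬ IsNodePt A.valuation P) : NsInt A (redCurve A E) P := by
  classical
  have h := isReduction_redCurve nf.intCoeff
  rcases nf.inE0_of_not_isNodePt hP with hG | hns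
  · exact absurd (inG1_torsion_free A.valuation h.val_b₂ h.val_b₄ h.val_b₆ h.val_b₈ hn hG hnP) hP0
  · exact hns

/-- the coordinates of an integral point with nonsingular reduction -/
theorem NsInt_coords {Ek : Affine (ResidueField A)} (h : IsReduction A E Ek) {P : E.Point}
    (hP : NsInt A Ek P) :
    ∃ (x y : K) (hxy : E.Nonsingular x y), P = .some x y hxy ∧ x ∈ A ∧ y ∈ A ∧
      Ek.Nonsingular (res A x) (res A y) := by
  obtain ⟨x, y, hxy, rfl, hx, hns⟩ := hP
  exact ⟨x, y, hxy, rfl, hx, h.mem_y hxy.1 hx, hns⟩

end Fermat.Agent.EMZ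

namespace Fermat.Agent.EMZ

open Fermat.Agent.MultRed Fermat.Agent.EllRed IsLocalRing S05H5 S05H65 S05H75

variable {K : Type*} [Field K] [DecidableEq K] {A : ValuationSubring K} {E : Affine K} {α β : K}
  {p : ℕ} {Q : E.Point}

/-- the setting of MP3-zero: `E` in nodal normal form at `A`, `Q` a point of odd prime order `p`
(a unit at `A`) in the zero component. -/
structure ZSetup (A : ValuationSubring K) (E : Affine K) (α β : K) (p : ℕ) (Q : E.Point) :
    Prop where
  nf : NodalNF A.valuation E α β
  hp : p.Prime
  hp2 : p ≠ 2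
  hvp : A.valuation (p : K) = 1
  h2 : (2 : K) ≠ 0
  hQ : addOrderOf Q = p
  hQ0 : ¬ IsNodePt A.valuation Q

namespace ZSetup

variable (S : ZSetup A E α β p Q)
include S

lemma intCoeff : IntCoeff A E := S.nf.intCoeff

lemma isReduction : IsReduction A E (redCurve A E) := isReduction_redCurve S.nf.intCoeff

lemma smul_Q : p • Q = 0 := by
  rw [← S.hQ]
  exact addOrderOf_nsmul_eq_zero Q

lemma Q_ne_zero : Q ≠ 0 := by
  intro h0
  have := S.hQ
  rw [h0, addOrderOf_zero] at this
  exact S.hp.one_lt.ne this

lemma smul_mem {P : E.Point} (hP : P ∈ AddSubgroup.zmultiples Q) : p • P = 0 := by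
  rw [AddSubgroup.mem_zmultiples_iff] at hP
  obtain ⟨k, rfl⟩ := hP
  rw [smul_comm, S.smul_Q, smul_zero]

lemma not_isNodePt {P : E.Point} (hP : P ∈ AddSubgroup.zmultiples Q) :
    ¬ IsNodePt A.valuation P :=
  not_isNodePt_of_mem_zmultiples S.nf S.hQ0 hP

lemma inE0v {P : E.Point} (hP : P ∈ AddSubgroup.zmultiples Q) : InE0v A P :=
  inE0v_of_not_isNodePt S.nf (S.not_isNodePt hP)

lemma nsInt {P : E.Point} (hP : P ∈ AddSubgroup.zmultiples Q) (hP0 : P ≠ 0) :
    NsInt A (redCurve A E) P :=
  nsInt_of_torsion S.nf S.hvp hP0 (S.smul_mem hP) (S.not_isNodePt hP)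

lemma finite_C : ((AddSubgroup.zmultiples Q : AddSubgroup E.Point) : Set E.Point).Finite := by
  rw [finite_zmultiples, ← addOrderOf_pos_iff, S.hQ]
  exact S.hp.pos

/-- a node point is not in `C` -/
lemma notMem_of_isNodePt {P : E.Point} (hP : IsNodePt A.valuation P) :
    P ∉ AddSubgroup.zmultiples Q :=
  fun h => S.not_isNodePt h hP

end ZSetup

end Fermat.Agent.EMZ
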