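/-
Cluster E' (Mazur), seat MP3-zero (helper4), step Z2b: the Vélu sums of a line in the zero
component are integral, and the Vélu model is an integral model.
-/
import Mathlib
import Fermat.Agent.E.MC.Zero.Basic
import Fermat.Agent.E.S12.VeluVC
import Fermat.Agent.Lib.MultRed.Comp.Half

set_option autoImplicit false
set_option linter.unusedSectionVars false

open WeierstrassCurve WeierstrassCurve.Affine

namespace Fermat.Agent.EMZ

open Fermat.Agent.MultRed Fermat.Agent.MultRed.Comp Fermat.Agent.EllRed Fermat.Agent.EV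
  Fermat.Agent.EVC IsLocalRing S05H5 S05H65 S05H75

variable {K : Type*} [Field K] [DecidableEq K] {A : ValuationSubring K} {E : Affine K} {α β : K}
  {p : ℕ} {Q : E.Point}

namespace ZSetup

variable (S : ZSetup A E α β p Q)
include S

lemma ptX_mem {P : E.Point} (hP : P ∈ AddSubgroup.zmultiples Q) : ptX P ∈ A := by
  by_cases hP0 : P = 0
  · rw [hP0]
    exact A.zero_mem
  · obtain ⟨x, y, hxy, rfl, hx, -⟩ := S.nsInt hP hP0
    exact hx

lemma ptY_mem {P : E.Point} (hP : P ∈ AddSubgroup.zmultiples Q) : ptY P ∈ A := by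
  by_cases hP0 : P = 0
  · rw [hP0]
    exact A.zero_mem
  · obtain ⟨x, y, hxy, rfl, hx, -⟩ := S.nsInt hP hP0
    exact S.isReduction.mem_y hxy.1 hx

lemma veluT_mem {P : E.Point} (hP : P ∈ AddSubgroup.zmultiples Q) : veluT E P ∈ A := by
  have hx := S.ptX_mem hP
  have h := S.isReduction
  unfold veluT
  exact A.add_mem _ _ (A.add_mem _ _ (A.mul_mem _ _ (ofNat_mem A 6) (pow_mem hx 2))
    (A.mul_mem _ _ h.mem_b₂ hx)) h.mem_b₄

lemma veluU_mem {P : E.Point} (hP : P ∈ AddSubgroup.zmultiples Q) : veluU E P ∈ A := by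
  have hx := S.ptX_mem hP
  have h := S.isReduction
  unfold veluU
  exact A.add_mem _ _ (A.add_mem _ _ (A.add_mem _ _ (A.mul_mem _ _ (ofNat_mem A 4) (pow_mem hx 3))
    (A.mul_mem _ _ h.mem_b₂ (pow_mem hx 2)))
    (A.mul_mem _ _ (A.mul_mem _ _ (ofNat_mem A 2) h.mem_b₄) hx)) h.mem_b₆

/-- the finite set of nonzero points of the line -/
lemma finite_nz : (nz (AddSubgroup.zmultiples Q : Set E.Point)).Finite :=
  S.finite_C.subset fun _ hP => hP.1

/-- half of the sum over the nonzero points of an even integral function is integral -/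
theorem half_sum_mem (f : E.Point → K) (hf : ∀ P, f (-P) = f P)
    (hfA : ∀ P ∈ AddSubgroup.zmultiples Q, f P ∈ A) :
    (∑ᶠ P ∈ nz (AddSubgroup.zmultiples Q : Set E.Point), f P) / 2 ∈ A := by
  classical
  have hfin := S.finite_nz
  set T₀ := hfin.toFinset with hT₀
  have memT : ∀ P, P ∈ T₀ ↔ P ∈ AddSubgroup.zmultiples Q ∧ P ≠ 0 := fun P => by
    rw [hT₀, Set.Finite.mem_toFinset]
    rfl
  have hneg : ∀ P ∈ T₀, -P ∈ T₀ := by
    intro P hP
    rw [memT] at hP ⊢
    exact ⟨AddSubgroup.neg_mem _ hP.1, neg_ne_zero.mpr hP.2⟩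
  have hne : ∀ P ∈ T₀, -P ≠ P := by
    intro P hP hPP
    rw [memT] at hP
    have h2P : 2 • P = 0 := by
      rw [two_nsmul]
      nth_rewrite 1 [← hPP]
      exact neg_add_cancel P
    have hodd : p % 2 = 1 := by
      rcases S.hp.eq_two_or_odd with h | h
      · exact absurd h S.hp2
      · exact h
    have : P = 0 := by
      have e : p = 2 * (p / 2) + 1 := by omega
      have h1 : (2 * (p / 2) + 1) • P = 0 := by rw [← e]; exact S.smul_mem hP.1
      rw [add_nsmul, mul_nsmul, h2P, smul_zero, zero_add, one_nsmul] at h1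
      exact h1
    exact hP.2 this
  obtain ⟨T, hTS, hsum⟩ := exists_half (K := K) T₀ hneg hne
  have half : ∀ a : K, (a + a) / 2 = a := fun a => by
    have := S.h2
    field_simp
    ring
  rw [finsum_mem_eq_finite_toFinset_sum _ hfin, ← hT₀, hsum f hf, half]
  exact sum_mem fun P hP => hfA P ((memT P).mp (hTS hP)).1

lemma ptX_neg' (P : E.Point) : ptX (-P) = ptX P := by
  rcases P with _ | ⟨x, y, hxy⟩ <;> rfl

theorem veluSumT_mem : veluSumT E (AddSubgroup.zmultiples Q : Set E.Point) ∈ A := by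
  rw [veluSumT_eq]
  refine S.half_sum_mem _ (fun P => ?_) (fun P hP => S.veluT_mem hP)
  simp only [veluT, S.ptX_neg']

theorem veluSumW_mem : veluSumW E (AddSubgroup.zmultiples Q : Set E.Point) ∈ A := by
  rw [veluSumW_eq]
  refine S.half_sum_mem _ (fun P => ?_)
    (fun P hP => A.add_mem _ _ (S.veluU_mem hP) (A.mul_mem _ _ (S.ptX_mem hP) (S.veluT_mem hP)))
  simp only [veluT, veluU, S.ptX_neg']

/-- **the Vélu model is integral** -/
theorem intCoeff_velu : IntCoeff A (veluCurve E (AddSubgroup.zmultiples Q : Set E.Point)) where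
  mem_a₁ := S.intCoeff.mem_a₁
  mem_a₂ := S.intCoeff.mem_a₂
  mem_a₃ := S.intCoeff.mem_a₃
  mem_a₄ := sub_mem S.intCoeff.mem_a₄ (A.mul_mem _ _ (ofNat_mem A 5) S.veluSumT_mem)
  mem_a₆ := sub_mem (sub_mem S.intCoeff.mem_a₆
    (A.mul_mem _ _ S.isReduction.mem_b₂ S.veluSumT_mem))
    (A.mul_mem _ _ (ofNat_mem A 7) S.veluSumW_mem)

end ZSetup

end Fermat.Agent.EMZ
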