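/-
Cluster E' (Mazur), seat MP3-zero (helper4), step Z3: `c₄` of the Vélu model is a unit.

`E` in nodal normal form, `C = ⟨Q⟩` in the zero component, `ζ = χ(Q)` (`χ = nodeChar ∘ red0`) a
primitive `p`-th root of unity of the residue field.  `x(P) ≡ b₂ χ(P) / (1 - χ(P))²`, so
`2 t ≡ b₂² Σ_{0<i<p} (6 Xᵢ² + Xᵢ)`, `Xᵢ = ζⁱ/(1 - ζⁱ)²`, and by helper51's `rootSum`
`c₄' = b₂² + 240 t ≡ p⁴ b₂²`.
-/
import Mathlib
import Fermat.Agent.E.MC.Zero.Sums
import Fermat.Agent.E.MC.Zero.NodeX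
import Fermat.Agent.E.MC.Zero.Reindex
import Fermat.Agent.E.MC.Zero.RootSum
import Fermat.Agent.Lib.MultRed.Comp.VeluVal

set_option autoImplicit false
set_option linter.unusedSectionVars false

open WeierstrassCurve WeierstrassCurve.Affine

namespace Fermat.Agent.EMZ

open Fermat.Agent.MultRed Fermat.Agent.MultRed.Comp Fermat.Agent.EllRed Fermat.Agent.EV
  Fermat.Agent.EVC IsLocalRing S05H5 S05H65 S05H75

variable {K : Type*} [Field K] [DecidableEq K] {A : ValuationSubring K} {E : Affine K} {α β : K}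
  {p : ℕ} {Q : E.Point}

/-- the residue of a finite sum of integral elements -/
lemma res_finset_sum {ι : Type*} (s : Finset ι) (f : ι → K) (hf : ∀ i ∈ s, f i ∈ A) :
    res A (∑ i ∈ s, f i) = ∑ i ∈ s, res A (f i) := by
  classical
  induction s using Finset.induction_on with
  | empty => simp
  | insert a s ha ih =>
    rw [Finset.sum_insert ha, Finset.sum_insert ha,
      res_add (hf a (Finset.mem_insert_self a s))
        (sum_mem fun i hi => hf i (Finset.mem_insert_of_mem hi)),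
      ih fun i hi => hf i (Finset.mem_insert_of_mem hi)]

/-- the character of the reduction, `χ = nodeChar ∘ red0` -/
noncomputable def chi (A : ValuationSubring K) (E : Affine K) (α β : K)
    [DecidableEq (ResidueField A)] (P : E.Point) : ResidueField A :=
  nodeChar (redCurve A E) (res A α) (res A β) (red0 A (redCurve A E) P)

namespace ZSetup

variable (S : ZSetup A E α β p Q) [DecidableEq (ResidueField A)]
include S

lemma inE0 {P : E.Point} (hP : P ∈ AddSubgroup.zmultiples Q) : InE0 A (redCurve A E) P :=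
  (inE0v_iff S.intCoeff P).mp (S.inE0v hP)

lemma chi_nsmul (i : ℕ) : chi A E α β (i • Q) = chi A E α β Q ^ i := by
  unfold chi
  rw [red0_nsmul S.isReduction (S.inE0 (AddSubgroup.mem_zmultiples Q)),
    S.nf.nodeCubic.nodeChar_nsmul]

lemma chi_ne_one {P : E.Point} (hP : P ∈ AddSubgroup.zmultiples Q) (hP0 : P ≠ 0) :
    chi A E α β P ≠ 1 := by
  unfold chi
  rw [Ne, S.nf.nodeCubic.nodeChar_eq_one_iff]
  exact red0_ne_zero_of_nsInt (S.nsInt hP hP0)

lemma chi_primitive : IsPrimitiveRoot (chi A E α β Q) p := by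
  have h1 : chi A E α β Q ^ p = 1 := by
    rw [← S.chi_nsmul, S.smul_Q]
    unfold chi
    rw [red0_zero, nodeChar_zero]
  have h2 : chi A E α β Q ≠ 1 := S.chi_ne_one (AddSubgroup.mem_zmultiples Q) S.Q_ne_zero
  haveI : Fact p.Prime := ⟨S.hp⟩
  have h3 : orderOf (chi A E α β Q) = p := orderOf_eq_prime h1 h2
  rw [← h3]
  exact IsPrimitiveRoot.orderOf _

lemma res_b₂_ne_zero : res A E.b₂ ≠ 0 := by
  rw [res_ne_zero_iff S.isReduction.mem_b₂]
  have hb : E.b₂ = (α - β) ^ 2 := by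
    have h1 := S.nf.hsum
    have h2 := S.nf.hprod
    simp only [WeierstrassCurve.b₂]
    have ha₁ : E.a₁ = -(α + β) := by rw [h1]; ring
    have ha₂ : E.a₂ = -(α * β) := by rw [h2]; ring
    rw [ha₁, ha₂]
    ring
  rw [hb, map_pow, S.nf.vαβ, one_pow]

lemma b₄_eq_zero : E.b₄ = 0 := by
  simp only [WeierstrassCurve.b₄, S.nf.a₃, S.nf.a₄]
  ring

lemma redCurve_b₂ : (redCurve A E).b₂ = res A E.b₂ := by
  have h := S.isReduction
  simp only [WeierstrassCurve.b₂, redCurve]
  rw [res_add (A.mul_mem _ _ h.mem_a₁ h.mem_a₁ |> fun h' => by simpa [pow_two] using h')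
    (A.mul_mem _ _ (ofNat_mem A 4) h.mem_a₂), res_pow h.mem_a₁, res_mul (ofNat_mem A 4) h.mem_a₂,
    res_ofNat]

/-- the `x`-coordinate of the reduction -/
lemma res_ptX {P : E.Point} (hP : P ∈ AddSubgroup.zmultiples Q) (hP0 : P ≠ 0) :
    res A (ptX P) * (1 - chi A E α β P) ^ 2 = res A E.b₂ * chi A E α β P := by
  obtain ⟨x, y, hxy, rfl, hx, hns⟩ := S.nsInt hP hP0
  unfold chi
  rw [red0_some hxy hx hns, ← S.redCurve_b₂]
  exact nodeChar_x_formula S.nf.nodeCubic hns

lemma res_veluT {P : E.Point} (hP : P ∈ AddSubgroup.zmultiples Q) (hP0 : P ≠ 0) :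
    res A (veluT E P) = res A E.b₂ ^ 2 *
      (6 * (chi A E α β P / (1 - chi A E α β P) ^ 2) ^ 2
        + chi A E α β P / (1 - chi A E α β P) ^ 2) := by
  have hx := S.ptX_mem hP
  have h := S.isReduction
  have h1 : 1 - chi A E α β P ≠ 0 := sub_ne_zero.mpr (S.chi_ne_one hP hP0).symm
  have hX : res A (ptX P) = res A E.b₂ * (chi A E α β P / (1 - chi A E α β P) ^ 2) := by
    rw [← mul_div_assoc, eq_div_iff (pow_ne_zero 2 h1)]
    exact S.res_ptX hP hP0
  unfold veluT
  rw [S.b₄_eq_zero, add_zero, res_add (A.mul_mem _ _ (ofNat_mem A 6) (pow_mem hx 2))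
    (A.mul_mem _ _ h.mem_b₂ hx), res_mul (ofNat_mem A 6) (pow_mem hx 2), res_pow hx,
    res_mul h.mem_b₂ hx, res_ofNat, hX]
  ring

/-- the residue of `2 t` -/
lemma res_two_mul_veluSumT :
    res A (2 * veluSumT E (AddSubgroup.zmultiples Q : Set E.Point)) = res A E.b₂ ^ 2 *
      ∑ i ∈ Finset.Ico 1 p, (6 * (chi A E α β Q ^ i / (1 - chi A E α β Q ^ i) ^ 2) ^ 2
        + chi A E α β Q ^ i / (1 - chi A E α β Q ^ i) ^ 2) := by
  have e : 2 * veluSumT E (AddSubgroup.zmultiples Q : Set E.Point)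
      = ∑ i ∈ Finset.Ico 1 p, veluT E (i • Q) := by
    rw [veluSumT_eq, mul_div_cancel₀ _ S.h2]
    exact finsum_nz_zmultiples S.hp.pos S.hQ (veluT E)
  have hmem : ∀ i : ℕ, i • Q ∈ AddSubgroup.zmultiples Q := fun i =>
    AddSubgroup.nsmul_mem _ (AddSubgroup.mem_zmultiples Q) i
  have hne : ∀ i ∈ Finset.Ico 1 p, i • Q ≠ 0 := by
    intro i hi h0
    rw [Finset.mem_Ico] at hi
    have := addOrderOf_dvd_of_nsmul_eq_zero h0
    rw [S.hQ] at this
    have := Nat.le_of_dvd (by omega) this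
    omega
  rw [e, res_finset_sum _ _ (fun i _ => S.veluT_mem (hmem i)), Finset.mul_sum]
  refine Finset.sum_congr rfl fun i hi => ?_
  rw [S.res_veluT (hmem i) (hne i hi), S.chi_nsmul]

/-- **(Z3)** the residue of `c₄` of the Vélu model is `p⁴ b₂²` -/
theorem res_veluCurve_c₄ :
    res A (veluCurve E (AddSubgroup.zmultiples Q : Set E.Point)).c₄
      = res A E.b₂ ^ 2 * (p : ResidueField A) ^ 4 := by
  have h := S.isReduction
  have ht := S.veluSumT_mem
  have e : (veluCurve E (AddSubgroup.zmultiples Q : Set E.Point)).c₄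
      = E.b₂ ^ 2 + 120 * (2 * veluSumT E (AddSubgroup.zmultiples Q : Set E.Point)) := by
    rw [veluCurve_c₄_normal S.nf.a₃ S.nf.a₄]
    ring
  have h2t : 2 * veluSumT E (AddSubgroup.zmultiples Q : Set E.Point) ∈ A :=
    A.mul_mem _ _ (ofNat_mem A 2) ht
  rw [e, res_add (pow_mem h.mem_b₂ 2) (A.mul_mem _ _ (ofNat_mem A 120) h2t), res_pow h.mem_b₂,
    res_mul (ofNat_mem A 120) h2t, res_ofNat, S.res_two_mul_veluSumT]
  have hroot := rootSum S.chi_primitive S.hp.pos
  linear_combination (res A E.b₂) ^ 2 * hroot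

/-- **(Z3)** `c₄` of the Vélu model is a unit -/
theorem veluCurve_c₄_unit :
    A.valuation (veluCurve E (AddSubgroup.zmultiples Q : Set E.Point)).c₄ = 1 := by
  have hint := S.intCoeff_velu
  have hmem : (veluCurve E (AddSubgroup.zmultiples Q : Set E.Point)).c₄ ∈ A := by
    have h := isReduction_redCurve hint
    simp only [WeierstrassCurve.c₄]
    exact sub_mem (pow_mem h.mem_b₂ 2) (A.mul_mem _ _ (ofNat_mem A 24) h.mem_b₄)
  rw [← res_ne_zero_iff hmem, S.res_veluCurve_c₄]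
  refine mul_ne_zero (pow_ne_zero 2 S.res_b₂_ne_zero) (pow_ne_zero 4 ?_)
  rw [← res_natCast (A := A), res_ne_zero_iff (natCast_mem A p)]
  exact S.hvp

end ZSetup

end Fermat.Agent.EMZ
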