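/-
Cluster E' (Mazur), seat MP3-zero (helper4), step Z1.

The dual-isogeny statement (DUAL, `E/S12/Dual.lean`) for curves over an arbitrary algebraically
closed field of characteristic zero (in `Type`): if `φ : E → F` is a surjective homomorphism with
kernel of order `p` and rational `x`-map, `p • P₀ = 0` and `φ P₀ ≠ 0`, then the Vélu quotient of
`F` by `⟨φ P₀⟩` has the same `j`-invariant as `E` (cross-multiplied).
Inputs: Vélu's theorem (V1) and the explicit `x`-map (V1x) as hypotheses, (U') proved by helper77.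
-/
import Mathlib
import Fermat.Agent.E.S12.Dual

set_option autoImplicit false
set_option linter.unusedSectionVars false
set_option linter.style.haveILetI false

open WeierstrassCurve WeierstrassCurve.Affine Polynomial

namespace Fermat.Agent.EMZ

open Fermat.Agent.EV Fermat.Agent.EU Fermat.Agent.ED Fermat.Agent.Torsion S05H65

/-- (V1x) for all curves over `k` -/
def VeluXAll (k : Type) [Field k] [DecidableEq k] : Prop :=
  ∀ (W : Affine k), W.Δ ≠ 0 → ∀ C : AddSubgroup W.Point, (C : Set W.Point).Finite →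
    Odd (Nat.card C) → VeluXFormula W C

/-- **(DUAL)** over an algebraically closed field of characteristic zero. -/
theorem dual_general {k : Type} [Field k] [DecidableEq k] [IsAlgClosed k] [CharZero k]
    {p : ℕ} (hp : p.Prime) (hp2 : p ≠ 2) (hV : VeluStatement) (hVx : VeluXAll k)
    (E F : Affine k) (hEΔ : E.Δ ≠ 0) (hFΔ : F.Δ ≠ 0)
    (φ : E.Point →+ F.Point) (hφsurj : Function.Surjective φ) (hφker : Nat.card φ.ker = p)
    (hφx : ∃ n d : Polynomial k, ∀ (x y : k) (h : E.Nonsingular x y),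
        (Point.some x y h : E.Point) ∉ φ.ker →
          d.eval x ≠ 0 ∧ ∃ (y' : k) (h' : F.Nonsingular (n.eval x / d.eval x) y'),
            φ (.some x y h) = .some (n.eval x / d.eval x) y' h')
    (P₀ : E.Point) (hP₀ : p • P₀ = 0) (hφP₀ : φ P₀ ≠ 0) :
    (veluCurve F (AddSubgroup.zmultiples (φ P₀) : Set F.Point)).c₄ ^ 3 * E.Δ
      = E.c₄ ^ 3 * (veluCurve F (AddSubgroup.zmultiples (φ P₀) : Set F.Point)).Δ := by
  have hU : UniqStatementW := uniqStatementW
  obtain ⟨n, d, hφnd⟩ := hφx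
  haveI : Fact p.Prime := ⟨hp⟩
  -- the subgroup `C = ⟨φ P₀⟩` of order `p`
  have hpφ : p • φ P₀ = 0 := by rw [← map_nsmul, hP₀, map_zero]
  have hord : addOrderOf (φ P₀) = p := addOrderOf_eq_prime hpφ hφP₀
  have hCcard : Nat.card (AddSubgroup.zmultiples (φ P₀)) = p := by
    rw [Nat.card_zmultiples, hord]
  have hCfin : ((AddSubgroup.zmultiples (φ P₀) : AddSubgroup F.Point) : Set F.Point).Finite := by
    have : Finite (AddSubgroup.zmultiples (φ P₀)) :=
      Nat.finite_of_card_ne_zero (by rw [hCcard]; exact hp.ne_zero)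
    exact Set.toFinite _
  have hCodd : Odd (Nat.card (AddSubgroup.zmultiples (φ P₀))) := by
    rw [hCcard]; exact hp.odd_of_ne_two hp2
  -- Vélu
  obtain ⟨hF''Δ, ψ, hψsurj, hψker, hψX⟩ :=
    hV k F hFΔ (AddSubgroup.zmultiples (φ P₀)) hCfin hCodd
  obtain ⟨n', d', hψnd⟩ := hasXMap_velu F (AddSubgroup.zmultiples (φ P₀)) hCfin
    (hVx F hFΔ _ hCfin hCodd) ψ hψker hψX
  -- the kernel of the composite is `E[p]`
  have hK0 : (ψ.comp φ).ker = AddSubgroup.comap φ (AddSubgroup.zmultiples (φ P₀)) := by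
    ext x
    constructor
    · intro hx
      have h1 : φ x ∈ ψ.ker := hx
      rw [hψker] at h1
      exact h1
    · intro hx
      have h1 : φ x ∈ ψ.ker := by rw [hψker]; exact hx
      exact h1
  have hK : (ψ.comp φ).ker = torSub E p := by
    rw [hK0]
    exact comap_zmultiples_eq_torsion φ hp hφker hP₀ hφP₀ (torSub E p)
      (fun x => Iff.rfl) (tcard_eq_sq hEΔ hp.one_le)
  have hKfin : (((ψ.comp φ).ker : AddSubgroup E.Point) : Set E.Point).Finite := by
    rw [hK]
    have : Finite (torSub E p) := finite_torSub E p hp.one_le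
    exact Set.toFinite _
  obtain ⟨N, D, G, hΦ₁, hG⟩ := hasXMapW_comp φ ψ hφnd hψnd hKfin
  have hΦ₂ := hasXMapW_nsmul E hp.one_le
  have hker₂ : (nsmulAddMonoidHom (α := E.Point) p).ker = torSub E p := rfl
  have hP₀0 : P₀ ≠ 0 := fun h => hφP₀ (by rw [h, map_zero])
  -- fibre-good
  have hfib : ∀ P : E.Point, P ∉ (ψ.comp φ).ker → ∃ T ∈ (ψ.comp φ).ker,
      ∃ (x y : k) (h : E.Nonsingular x y),
        P + T = .some x y h ∧ G.eval x ≠ 0 ∧ (ladG E p).eval x ≠ 0 := by
    intro P hP
    have hpP : p • P ≠ 0 := fun h0 => hP (by rw [hK]; exact h0)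
    obtain ⟨T, hT, hPT⟩ := exists_add_torsion_nsmul_ne_zero hp hpP hP₀ hP₀0
    have hTK : T ∈ (ψ.comp φ).ker := by rw [hK]; exact hT
    have hPT0 : P + T ≠ 0 := by
      have := hPT 1 le_rfl hp.one_le
      rwa [one_smul] at this
    have hPTK : P + T ∉ (ψ.comp φ).ker := by
      intro h
      have := hPT p hp.one_le le_rfl
      apply this
      rw [hK] at h
      exact h
    obtain ⟨x, y, h, e⟩ := exists_some_of_ne_zero hPT0
    refine ⟨T, hTK, x, y, h, e, hG x y h (e ▸ hPTK), ?_⟩
    have := ladG_eval_ne_zero (W := E) (P := P + T) p hp.one_le hPT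
    rwa [e, px_some] at this
  exact hU k E (veluCurve F
      ((AddSubgroup.zmultiples (φ P₀) : AddSubgroup F.Point) : Set F.Point)) E
    hEΔ hF''Δ hEΔ (ψ.comp φ) (nsmulAddMonoidHom (α := E.Point) p) (hψsurj.comp hφsurj)
    (smul_surjective hEΔ hp.one_le) (hK.trans hker₂.symm) hKfin N D G _ _ _ hΦ₁ hΦ₂ hfib

end Fermat.Agent.EMZ
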