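/-
Cluster E' (Mazur), seat MP3-zero (helper4), step Z4a: a `p`-torsion point outside the zero
component.

`E` in nodal normal form at `A`, `Δ ≠ 0`, `p` a prime which is a unit at `A`.  `E[p]` has `p²`
elements (`Torsion.tcard_eq_sq`); the map `P ↦ nodeChar (red0 P)` is injective on `E⁰[p]`
(`red0_add`, `NodeCubic.nodeChar_add`, `nodeChar_eq_one_iff`, `red0_eq_zero_iff`,
`inG1_torsion_free`) with values in the `p`-th roots of unity of the residue field (at most `p`).
-/
import Mathlib
import Fermat.Agent.E.MC.Zero.Basic
import Fermat.Agent.Lib.Torsion.Card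

set_option autoImplicit false
set_option linter.unusedSectionVars false

open WeierstrassCurve WeierstrassCurve.Affine

namespace Fermat.Agent.EMZ

open Fermat.Agent.MultRed Fermat.Agent.EllRed Fermat.Agent.Torsion IsLocalRing S05H5 S05H65 S05H75

variable {K : Type*} [Field K] [DecidableEq K] [IsAlgClosed K] [CharZero K]
  {A : ValuationSubring K} {E : Affine K} {α β : K}

/-- **(Z4a)** some `p`-torsion point is a node point -/
theorem exists_torsion_isNodePt (nf : NodalNF A.valuation E α β) (hΔ : E.Δ ≠ 0) {p : ℕ}
    (hp : p.Prime) (hvp : A.valuation (p : K) = 1) :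
    ∃ R : E.Point, p • R = 0 ∧ IsNodePt A.valuation R := by
  classical
  by_contra hcon
  push Not at hcon
  have hred := isReduction_redCurve nf.intCoeff
  have nc := nf.nodeCubic
  have hE0 : ∀ P : E.Point, p • P = 0 → InE0 A (redCurve A E) P := fun P hP =>
    nf.inE0_of_not_isNodePt (hcon P hP)
  -- the character of the reduction on the `p`-torsion
  let f : {P : E.Point | p • P = 0} → ResidueField A := fun P =>
    nodeChar (redCurve A E) (res A α) (res A β) (red0 A (redCurve A E) P.1)
  have hf_pow : ∀ P, f P ^ p = 1 := by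
    intro P
    show nodeChar (redCurve A E) (res A α) (res A β) (red0 A (redCurve A E) P.1) ^ p = 1
    rw [← nc.nodeChar_nsmul, ← red0_nsmul hred (hE0 P.1 P.2), P.2, red0_zero, nodeChar_zero]
  have hf_inj : Function.Injective f := by
    intro P Q hPQ
    have hP := hE0 P.1 P.2
    have hQ := hE0 Q.1 Q.2
    have hsub : InE0 A (redCurve A E) (P.1 - Q.1) := inE0_sub hred hP hQ
    have h1 : red0 A (redCurve A E) P.1 =
        red0 A (redCurve A E) (P.1 - Q.1) + red0 A (redCurve A E) Q.1 := by
      rw [← red0_add hred hsub hQ, sub_add_cancel]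
    have h2 : nodeChar (redCurve A E) (res A α) (res A β) (red0 A (redCurve A E) (P.1 - Q.1)) *
        f Q = f P := by
      show _ * nodeChar (redCurve A E) (res A α) (res A β) (red0 A (redCurve A E) Q.1) =
        nodeChar (redCurve A E) (res A α) (res A β) (red0 A (redCurve A E) P.1)
      rw [h1, nc.nodeChar_add]
    have hfQ : f Q ≠ 0 := nc.nodeChar_ne_zero _
    have h3 : nodeChar (redCurve A E) (res A α) (res A β)
        (red0 A (redCurve A E) (P.1 - Q.1)) = 1 := by
      rw [hPQ] at h2
      exact mul_right_cancel₀ hfQ (h2.trans (one_mul _).symm)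
    have h4 : red0 A (redCurve A E) (P.1 - Q.1) = 0 := (nc.nodeChar_eq_one_iff _).mp h3
    have h5 : InG1 A.valuation (P.1 - Q.1) := (red0_eq_zero_iff hsub).mp h4
    have h6 : p • (P.1 - Q.1) = 0 := by
      rw [smul_sub, P.2, Q.2, sub_zero]
    have h7 : P.1 - Q.1 = 0 :=
      inG1_torsion_free A.valuation hred.val_b₂ hred.val_b₄ hred.val_b₆ hred.val_b₈ hvp h5 h6
    exact Subtype.ext (sub_eq_zero.mp h7)
  -- counting
  have hcard : Nat.card {P : E.Point | p • P = 0} = p ^ 2 := by
    rw [← tcard_eq_sq hΔ hp.one_le, tcard_eq_ncard, Nat.card_coe_set_eq]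
  let g : {P : E.Point | p • P = 0} → (Polynomial.nthRootsFinset p (1 : ResidueField A)) :=
    fun P => ⟨f P, (Polynomial.mem_nthRootsFinset hp.pos _).mpr (hf_pow P)⟩
  have hg_inj : Function.Injective g := by
    intro P Q hPQ
    exact hf_inj (congrArg Subtype.val hPQ)
  have hle : Nat.card {P : E.Point | p • P = 0} ≤ p := by
    calc Nat.card {P : E.Point | p • P = 0}
        ≤ Nat.card (Polynomial.nthRootsFinset p (1 : ResidueField A)) :=
          Nat.card_le_card_of_injective g hg_inj
      _ = (Polynomial.nthRootsFinset p (1 : ResidueField A)).card := Nat.card_eq_finsetCard _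
      _ ≤ Multiset.card (Polynomial.nthRoots p (1 : ResidueField A)) := by
          rw [Polynomial.nthRootsFinset_def]
          exact Multiset.toFinset_card_le _
      _ ≤ p := Polynomial.card_nthRoots p 1
  rw [hcard] at hle
  have h2 := hp.two_le
  nlinarith

end Fermat.Agent.EMZ
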