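/-
Cluster E' (Mazur), seat MP3-zero (helper4), step Z5.

* `exists_nodalNF_of_intCoeff`: the nodal normal form of an integral Weierstrass equation over a
  valued algebraically closed field with `v Δ < 1`, `v c₄ = 1` (from `Lib/MultRed/Normal`).
* `l1_general`: helper45's (L1) (`E/S12/L1.lean`) for an integral model over `Q̄` (not
  necessarily defined over `ℤ`): the Vélu quotient by the line generated by a point of odd prime
  order `p` with singular reduction has `c₄` a unit and `v(Δ')^p = v(Δ)`.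
-/
import Mathlib
import Fermat.Agent.E.S12.L1

set_option autoImplicit false
set_option linter.unusedSectionVars false

open WeierstrassCurve WeierstrassCurve.Affine

namespace Fermat.Agent.EMZ

open Fermat.Agent.EV Fermat.Agent.EVC Fermat.Agent.MultRed Fermat.Agent.MultRed.Comp
  Fermat.Agent.VarChange Fermat.Agent.ES12 S05H65 S05H27

section NF

variable {K : Type*} [Field K] [IsAlgClosed K] {Γ₀ : Type*} [LinearOrderedCommGroupWithZero Γ₀]

/-- the nodal normal form of an integral equation with `v Δ < 1`, `v c₄ = 1` -/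
theorem exists_nodalNF_of_intCoeff (v : Valuation K Γ₀) (h2 : (2 : K) ≠ 0) (h3 : (3 : K) ≠ 0)
    (W : Affine K) (ha₁ : v W.a₁ ≤ 1) (ha₂ : v W.a₂ ≤ 1) (ha₃ : v W.a₃ ≤ 1) (ha₄ : v W.a₄ ≤ 1)
    (ha₆ : v W.a₆ ≤ 1) (hΔ : v W.Δ < 1) (hc₄ : v W.c₄ = 1) :
    ∃ r t α β : K, v r ≤ 1 ∧ v t ≤ 1 ∧ NodalNF v ((transl r t) • W).toAffine α β := by
  obtain ⟨r, t, hC⟩ := exists_isCentering v W h2 h3 ha₁ ha₂ ha₃ ha₄ ha₆ hΔ hc₄
  obtain ⟨hb₁, hb₂, -, -, -⟩ := hC.integral ha₁ ha₂
  have hb : v ((transl r t • W).a₁ ^ 2 + 4 * (transl r t • W).a₂) = 1 := hC.b₂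
  obtain ⟨α, β, hα, hβ, hsum, hprod, hαβ⟩ := exists_tangent_roots v h2 hb₁ hb₂ hb
  exact ⟨r, t, α, β, hC.r_int, hC.t_int,
    { a₃ := hC.a₃
      a₄ := hC.a₄
      va₆ := hC.a₆
      hsum := hsum
      hprod := hprod
      vα := hα
      vβ := hβ
      vαβ := hαβ }⟩

end NF

/-- **(L1)** for an integral model over `Q̄`. -/
theorem l1_general {p : ℕ} (hp : p.Prime) (hp2 : p ≠ 2) (A : ValuationSubring Qb)
    (E : Affine Qb) (hint : IntCoeff A E) (hΔ0 : E.Δ ≠ 0) (hΔ : A.valuation E.Δ < 1)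
    (hc₄ : A.valuation E.c₄ = 1) (Q : E.Point) (hQ : addOrderOf Q = p)
    (hsing : IsSingPt A.valuation Q) :
    A.valuation (veluCurve E (AddSubgroup.zmultiples Q : Set E.Point)).c₄ = 1 ∧
      A.valuation (veluCurve E (AddSubgroup.zmultiples Q : Set E.Point)).Δ ^ p
        = A.valuation E.Δ := by
  obtain ⟨r, t, α, β, hr, ht, nf⟩ := exists_nodalNF_of_intCoeff A.valuation two_ne_zero
    three_ne_zero E ((A.valuation_le_one_iff _).mpr hint.mem_a₁)
    ((A.valuation_le_one_iff _).mpr hint.mem_a₂) ((A.valuation_le_one_iff _).mpr hint.mem_a₃)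
    ((A.valuation_le_one_iff _).mpr hint.mem_a₄) ((A.valuation_le_one_iff _).mpr hint.mem_a₆)
    hΔ hc₄
  set E' : Affine Qb := (transl r t) • E with hE'
  -- the point in the normal form
  set Q' : E'.Point := (vcEquiv (W₁ := E) (transl r t) rfl).symm Q with hQ'
  have hQQ' : vcHom (W₁ := E) (transl r t) rfl Q' = Q :=
    (vcEquiv (W₁ := E) (transl r t) rfl).apply_symm_apply Q
  have hordQ' : addOrderOf Q' = p := by
    rw [← addOrderOf_vcHom (W₁ := E) (transl r t) rfl Q', hQQ']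
    exact hQ
  have hnode : IsNodePt A.valuation Q' :=
    isNodePt_of_isSingPt A.valuation E ((A.valuation_le_one_iff _).mpr hint.mem_a₁)
      ((A.valuation_le_one_iff _).mpr hint.mem_a₂) ((A.valuation_le_one_iff _).mpr hint.mem_a₃)
      ((A.valuation_le_one_iff _).mpr hint.mem_a₄) ((A.valuation_le_one_iff _).mpr hint.mem_a₆)
      hr ht nf Q' (by rw [hQQ']; exact hsing)
  have hΔE' : E'.Δ = E.Δ := by
    rw [hE', variableChange_Δ]
    have : (((transl r t).u⁻¹ : Qbˣ) : Qb) = 1 := by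
      show (((1 : Qbˣ)⁻¹ : Qbˣ) : Qb) = 1
      simp
    rw [this, one_pow, one_mul]
  have hΔ0' : E'.Δ ≠ 0 := by
    rw [hΔE']
    exact hΔ0
  have ha₆0 : E'.a₆ ≠ 0 := by
    intro h0
    apply hΔ0'
    rw [Δ_of_normal E' nf.a₃ nf.a₄, h0]
    ring
  -- the additive valuation and the parameters
  set V := ofValuation A.valuation with hV
  obtain ⟨δ, hδ⟩ := IsAlgClosed.exists_pow_nat_eq E'.a₆ (n := 2) (by norm_num)
  have hδ0 : δ ≠ 0 := by
    rintro rfl
    apply ha₆0
    rw [← hδ]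
    ring
  set h := V.w δ with hh'
  have ha₆ : V.Ex E'.a₆ (h + h) := by
    rw [← hδ]
    exact (AVal.ex_of_ne hδ0).sq
  have hh : 0 < h := by
    have h1 : V.Gt E'.a₆ 0 := (lt_one_iff_gt A.valuation _).mp nf.va₆
    have h2 := ha₆.not_gt h1
    by_contra hc
    rw [not_lt] at hc
    have : h + h ≤ 0 := add_nonpos hc hc
    exact absurd h2 (not_lt.mpr this)
  have hb₂ : V.Ex E'.b₂ 0 := by
    rw [← eq_one_iff_ex]
    have hb : E'.b₂ = (α - β) ^ 2 := by
      have h1 := nf.hsum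
      have h2 := nf.hprod
      simp only [WeierstrassCurve.b₂]
      have ha₁ : E'.a₁ = -(α + β) := by rw [h1]; ring
      have ha₂ : E'.a₂ = -(α * β) := by rw [h2]; ring
      rw [ha₁, ha₂]
      ring
    rw [hb, map_pow, nf.vαβ, one_pow]
  have Cn : CoreN V E'.b₂ E'.a₆ h :=
    { h2 := ge_ofNat V 2
      hb₂ := hb₂
      ha₆ := ha₆
      hh := hh }
  have hQ'0 : Q' ≠ 0 := by
    intro h0
    rw [h0] at hnode
    exact hnode
  have hρ : rhoN V h Q' ≠ 0 := by
    rw [rhoN_of_ne hQ'0]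
    apply ne_of_gt
    apply cl_pos_of_gt hh
    rw [hV, ← lt_one_iff_gt]
    rcases hQ'' : Q' with _ | ⟨x, y, hxy⟩
    · exact absurd hQ'' hQ'0
    · rw [hQ''] at hnode
      exact hnode.1
  obtain ⟨g, hg0, hpg, hc₄', hΔ'⟩ :=
    velu_val nf.a₃ nf.a₄ Cn (two_ne_zero) hp hp2 Q' hordQ' hρ
  -- transfer to the original model
  have hfin : ((AddSubgroup.zmultiples Q : Set E.Point)).Finite := by
    rw [finite_zmultiples, ← addOrderOf_pos_iff, hQ]
    exact hp.pos
  have hpre : (vcHom (W₁ := E) (transl r t) rfl) ⁻¹' (AddSubgroup.zmultiples Q : Set E.Point)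
      = (AddSubgroup.zmultiples Q' : Set E'.Point) :=
    preimage_zmultiples (W₁ := E) (transl r t) rfl Q
  have hu : (((transl r t).u : Qbˣ) : Qb) = 1 := rfl
  have e₄ := veluCurve_c₄_vc (W₁ := E) (transl r t) rfl _ hfin
  have eΔ := veluCurve_Δ_vc (W₁ := E) (transl r t) rfl _ hfin
  rw [hpre, hu, one_pow, one_mul] at e₄ eΔ
  constructor
  · rw [e₄, eq_one_iff_ex]
    exact hc₄'
  · rw [eΔ, ← hΔE', ← map_pow, eq_iff_ex A.valuation hΔ0']
    have h1 : V.Ex E'.Δ (h + h) := by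
      have : A.valuation E'.Δ = A.valuation E'.a₆ := nf.v_Δ
      rw [eq_iff_ex A.valuation ha₆0] at this
      exact this.congr ha₆.2
    have h2 := hΔ'.pow p
    rw [hpg] at h2
    exact h2.congr h1.2.symm

end Fermat.Agent.EMZ
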