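/-
Cluster E' (Mazur), seat MP3-zero (helper4), step Z4b (proofs: helper77): the image of a node point
under the Vélu isogeny of a line in the zero component has singular reduction on the Vélu model.

Setting (`ZSetup`, `Zero/Basic.lean`): `E` in nodal normal form at `A`, `Q ∈ E⁰` of odd prime order
`p`, `v p = 1`, `C = ⟨Q⟩`.  For a node point `P` all `P + Qᵢ` (`Qᵢ ∈ C`) are node points
(`isNodePt_add`), so `veluX P ≡ -Σ x(Qᵢ)`, `veluY P ≡ -Σ y(Qᵢ)` modulo the maximal ideal: the
reduction of `φ P` does not depend on `P`.  For `p • R = 0`, `R` a node point: `R` and `2 • R` are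
node points; if `φ R` had nonsingular reduction then `red (φ (2R)) = red (φ R)` and
`red (φ (2R)) = 2 red (φ R)` (`red0_nsmul` on the integral model `veluCurve E C`), so
`red (φ R) = 0`, absurd for an integral point (`red0_ne_zero_of_nsInt`).
-/
import Mathlib
import Fermat.Agent.E.MC.Zero.Sums

set_option autoImplicit false
set_option linter.unusedSectionVars false

open WeierstrassCurve WeierstrassCurve.Affine

namespace Fermat.Agent.EMZ

open Fermat.Agent.MultRed Fermat.Agent.EllRed Fermat.Agent.EV Fermat.Agent.EVC IsLocalRing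
  S05H5 S05H65 S05H75

variable {K : Type*} [Field K] [DecidableEq K] {A : ValuationSubring K} {E : Affine K} {α β : K}
  {p : ℕ} {Q : E.Point}

/-- an integral affine point of `E⁰` is an integral point with nonsingular reduction -/
theorem sg_nsInt_of_inE0 {E' : Affine K} {Ek : Affine (ResidueField A)} {x y : K}
    (h : E'.Nonsingular x y) (hx : x ∈ A) (hE0 : InE0 A Ek (Point.some x y h)) :
    Ek.Nonsingular (res A x) (res A y) := by
  rcases hE0 with hG | ⟨x', y', hxy', heq, -, hns'⟩
  · rcases hG with h0 | hlt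
    · exact absurd h0 (Point.some_ne_zero h)
    · rw [px_some] at hlt
      exact absurd ((A.valuation_le_one_iff x).mpr hx) (not_le.mpr hlt)
  · simp only [Point.some.injEq] at heq
    obtain ⟨rfl, rfl⟩ := heq
    exact hns'

/-- on an integral model: if `T` and `2 T` are integral affine points with the same reduction,
then `T` has singular reduction -/
theorem sg_isSingPt_of_double {E' : Affine K} (hint : IntCoeff A E') {x y x₂ y₂ : K}
    (h : E'.Nonsingular x y) (h₂ : E'.Nonsingular x₂ y₂)
    (h2T : (2 : ℕ) • (Point.some x y h : E'.Point) = Point.some x₂ y₂ h₂)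
    (hx : x ∈ A) (hx₂ : x₂ ∈ A)
    (hxx : A.valuation (x - x₂) < 1) (hyy : A.valuation (y - y₂) < 1) :
    IsSingPt A.valuation (Point.some x y h : E'.Point) := by
  classical
  by_contra hns
  have hR := isReduction_redCurve hint
  have hE0v : InE0v A (Point.some x y h : E'.Point) := (not_isSingPt_iff_inE0v _).mp hns
  have hE0 : InE0 A (redCurve A E') (Point.some x y h : E'.Point) := (inE0v_iff hint _).mp hE0v
  have hy : y ∈ A := hR.mem_y h.1 hx
  have hy₂ : y₂ ∈ A := hR.mem_y h₂.1 hx₂
  have hns' := sg_nsInt_of_inE0 h hx hE0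
  have hE0₂ := inE0_nsmul hR hE0 2
  rw [h2T] at hE0₂
  have hns₂ := sg_nsInt_of_inE0 h₂ hx₂ hE0₂
  have e1 := red0_nsmul hR hE0 2
  rw [h2T, red0_some h₂ hx₂ hns₂, red0_some h hx hns'] at e1
  have ex : res A x₂ = res A x := by
    rw [res_eq_iff hx₂ hx, ← neg_sub, Valuation.map_neg]
    exact hxx
  have ey : res A y₂ = res A y := by
    rw [res_eq_iff hy₂ hy, ← neg_sub, Valuation.map_neg]
    exact hyy
  have e2 : (Point.some (res A x₂) (res A y₂) hns₂ : (redCurve A E').Point)
      = Point.some (res A x) (res A y) hns' := by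
    simp only [Point.some.injEq]
    exact ⟨ex, ey⟩
  rw [e2, two_nsmul] at e1
  have e3 : (Point.some (res A x) (res A y) hns' : (redCurve A E').Point) = 0 := by
    have := e1.symm
    rwa [add_eq_left] at this
  exact Point.some_ne_zero hns' e3

/-- a singular point on the reduction forces bad reduction -/
theorem sg_Δ_lt_of_isSingPt {E' : Affine K} (hint : IntCoeff A E') {T : E'.Point}
    (hT : IsSingPt A.valuation T) : A.valuation E'.Δ < 1 := by
  have hR := isReduction_redCurve hint
  rcases T with _ | ⟨x, y, h⟩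
  · exact absurd hT (fun h => h)
  · obtain ⟨hx, h1, h2⟩ := hT
    have hxA : x ∈ A := (A.valuation_le_one_iff x).mp hx
    have hyA : y ∈ A := hR.mem_y h.1 hxA
    by_contra hΔ
    have hΔ1 : (redCurve A E').Δ ≠ 0 := by
      rw [← hR.res_Δ, Ne, res_eq_zero_iff hR.mem_Δ]
      exact hΔ
    have hns := hR.nonsingular_res hΔ1 h.1 hxA hyA
    rw [nonsingular_res_iff hint h.1 hxA] at hns
    exact hns ⟨h1, h2⟩

/-- the coordinates of a node point -/
theorem sg_node_coords {P : E.Point} (hP : IsNodePt A.valuation P) :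
    A.valuation (ptX P) < 1 ∧ A.valuation (ptY P) < 1 := by
  rcases P with _ | ⟨x, y, h⟩
  · exact absurd hP (fun h => h)
  · exact hP

namespace ZSetup

variable (S : ZSetup A E α β p Q)
include S

/-- `2 R` is a node point if `R` is a `p`-torsion node point -/
theorem isNodePt_two_nsmul {R : E.Point} (hR : IsNodePt A.valuation R) (hpR : p • R = 0) :
    IsNodePt A.valuation (2 • R) := by
  classical
  by_contra hn
  have h1 : InE0v A (2 • R) := inE0v_of_not_isNodePt S.nf hn
  have h2 : InE0 A (redCurve A E) (2 • R) := (inE0v_iff S.intCoeff _).mp h1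
  have h3 := inE0_nsmul S.isReduction h2 ((p + 1) / 2)
  have hodd : p % 2 = 1 := by
    rcases S.hp.eq_two_or_odd with h | h
    · exact absurd h S.hp2
    · exact h
  have e : ((p + 1) / 2) • (2 • R) = R := by
    rw [← mul_nsmul']
    have : (p + 1) / 2 * 2 = p + 1 := by omega
    rw [this, add_nsmul, hpR, zero_add, one_nsmul]
  rw [e] at h3
  exact not_inE0v_of_isNodePt S.nf hR ((inE0v_iff S.intCoeff _).mpr h3)

/-- the sum of the `x`-coordinates of the nonzero points of the line is integral -/
theorem sum_ptX_mem :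
    (∑ᶠ P ∈ nz (AddSubgroup.zmultiples Q : Set E.Point), ptX P) ∈ A := by
  rw [finsum_mem_eq_finite_toFinset_sum _ S.finite_nz]
  refine sum_mem fun P hP => ?_
  rw [Set.Finite.mem_toFinset] at hP
  exact S.ptX_mem hP.1

/-- the sum of the `y`-coordinates of the nonzero points of the line is integral -/
theorem sum_ptY_mem :
    (∑ᶠ P ∈ nz (AddSubgroup.zmultiples Q : Set E.Point), ptY P) ∈ A := by
  rw [finsum_mem_eq_finite_toFinset_sum _ S.finite_nz]
  refine sum_mem fun P hP => ?_
  rw [Set.Finite.mem_toFinset] at hP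
  exact S.ptY_mem hP.1

/-- `veluX P ≡ -Σ x(Qᵢ)` for a node point `P` -/
theorem veluX_add_sum_lt {P : E.Point} (hP : IsNodePt A.valuation P) :
    A.valuation (veluX E (AddSubgroup.zmultiples Q : Set E.Point) P +
      ∑ᶠ P' ∈ nz (AddSubgroup.zmultiples Q : Set E.Point), ptX P') < 1 := by
  have hfin := S.finite_nz
  have e : veluX E (AddSubgroup.zmultiples Q : Set E.Point) P +
      ∑ᶠ P' ∈ nz (AddSubgroup.zmultiples Q : Set E.Point), ptX P'
      = ptX P + ∑ᶠ P' ∈ nz (AddSubgroup.zmultiples Q : Set E.Point), ptX (P + P') := by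
    have h1 : veluX E (AddSubgroup.zmultiples Q : Set E.Point) P
        = ptX P + ∑ᶠ P' ∈ nz (AddSubgroup.zmultiples Q : Set E.Point),
            (ptX (P + P') - ptX P') := rfl
    rw [h1, finsum_mem_sub_distrib _ _ hfin]
    ring
  rw [e, finsum_mem_eq_finite_toFinset_sum _ hfin]
  refine lt_of_le_of_lt (Valuation.map_add _ _ _) (max_lt (sg_node_coords hP).1 ?_)
  refine Valuation.map_sum_lt _ one_ne_zero fun P' hP' => ?_
  rw [Set.Finite.mem_toFinset] at hP'
  exact (sg_node_coords (isNodePt_add S.nf hP (S.not_isNodePt hP'.1))).1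

/-- `veluY P ≡ -Σ y(Qᵢ)` for a node point `P` -/
theorem veluY_add_sum_lt {P : E.Point} (hP : IsNodePt A.valuation P) :
    A.valuation (veluY E (AddSubgroup.zmultiples Q : Set E.Point) P +
      ∑ᶠ P' ∈ nz (AddSubgroup.zmultiples Q : Set E.Point), ptY P') < 1 := by
  have hfin := S.finite_nz
  have e : veluY E (AddSubgroup.zmultiples Q : Set E.Point) P +
      ∑ᶠ P' ∈ nz (AddSubgroup.zmultiples Q : Set E.Point), ptY P'
      = ptY P + ∑ᶠ P' ∈ nz (AddSubgroup.zmultiples Q : Set E.Point), ptY (P + P') := by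
    have h1 : veluY E (AddSubgroup.zmultiples Q : Set E.Point) P
        = ptY P + ∑ᶠ P' ∈ nz (AddSubgroup.zmultiples Q : Set E.Point),
            (ptY (P + P') - ptY P') := rfl
    rw [h1, finsum_mem_sub_distrib _ _ hfin]
    ring
  rw [e, finsum_mem_eq_finite_toFinset_sum _ hfin]
  refine lt_of_le_of_lt (Valuation.map_add _ _ _) (max_lt (sg_node_coords hP).2 ?_)
  refine Valuation.map_sum_lt _ one_ne_zero fun P' hP' => ?_
  rw [Set.Finite.mem_toFinset] at hP'
  exact (sg_node_coords (isNodePt_add S.nf hP (S.not_isNodePt hP'.1))).2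

/-- `veluX P` is integral for a node point `P` -/
theorem veluX_mem {P : E.Point} (hP : IsNodePt A.valuation P) :
    veluX E (AddSubgroup.zmultiples Q : Set E.Point) P ∈ A := by
  have h1 : veluX E (AddSubgroup.zmultiples Q : Set E.Point) P +
      ∑ᶠ P' ∈ nz (AddSubgroup.zmultiples Q : Set E.Point), ptX P' ∈ A :=
    (A.valuation_le_one_iff _).mp (S.veluX_add_sum_lt hP).le
  have := sub_mem h1 S.sum_ptX_mem
  rwa [add_sub_cancel_right] at this

/-- the reduction of `(veluX P, veluY P)` does not depend on the node point `P` -/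
theorem velu_sub_lt {P P' : E.Point} (hP : IsNodePt A.valuation P)
    (hP' : IsNodePt A.valuation P') :
    A.valuation (veluX E (AddSubgroup.zmultiples Q : Set E.Point) P -
        veluX E (AddSubgroup.zmultiples Q : Set E.Point) P') < 1 ∧
      A.valuation (veluY E (AddSubgroup.zmultiples Q : Set E.Point) P -
        veluY E (AddSubgroup.zmultiples Q : Set E.Point) P') < 1 := by
  constructor
  · have h1 := S.veluX_add_sum_lt hP
    have h2 := S.veluX_add_sum_lt hP'
    have := lt_of_le_of_lt (Valuation.map_sub _ _ _) (max_lt h1 h2)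
    rwa [add_sub_add_right_eq_sub] at this
  · have h1 := S.veluY_add_sum_lt hP
    have h2 := S.veluY_add_sum_lt hP'
    have := lt_of_le_of_lt (Valuation.map_sub _ _ _) (max_lt h1 h2)
    rwa [add_sub_add_right_eq_sub] at this

/-- **(Z4b)** the image of a `p`-torsion node point has singular reduction on the Vélu model -/
theorem isSingPt_velu
    (φ : E.Point →+ (veluCurve E (AddSubgroup.zmultiples Q : Set E.Point)).Point)
    (hφ : ∀ P : E.Point, P ∉ AddSubgroup.zmultiples Q →
      ∃ h, φ P = .some (veluX E (AddSubgroup.zmultiples Q : Set E.Point) P)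
        (veluY E (AddSubgroup.zmultiples Q : Set E.Point) P) h)
    {R : E.Point} (hR : IsNodePt A.valuation R) (hpR : p • R = 0) :
    IsSingPt A.valuation (φ R) := by
  have hR2 := S.isNodePt_two_nsmul hR hpR
  obtain ⟨h, e⟩ := hφ R (S.notMem_of_isNodePt hR)
  obtain ⟨h₂, e₂⟩ := hφ (2 • R) (S.notMem_of_isNodePt hR2)
  rw [e]
  have h2T : (2 : ℕ) • (Point.some _ _ h :
      (veluCurve E (AddSubgroup.zmultiples Q : Set E.Point)).Point) = Point.some _ _ h₂ := by
    rw [← e, ← e₂, map_nsmul]
  obtain ⟨hxx, hyy⟩ := S.velu_sub_lt hR hR2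
  exact sg_isSingPt_of_double S.intCoeff_velu h h₂ h2T (S.veluX_mem hR) (S.veluX_mem hR2) hxx hyy

/-- the Vélu model has bad reduction -/
theorem veluCurve_Δ_lt
    (φ : E.Point →+ (veluCurve E (AddSubgroup.zmultiples Q : Set E.Point)).Point)
    (hφ : ∀ P : E.Point, P ∉ AddSubgroup.zmultiples Q →
      ∃ h, φ P = .some (veluX E (AddSubgroup.zmultiples Q : Set E.Point) P)
        (veluY E (AddSubgroup.zmultiples Q : Set E.Point) P) h)
    {R : E.Point} (hR : IsNodePt A.valuation R) (hpR : p • R = 0) :
    A.valuation (veluCurve E (AddSubgroup.zmultiples Q : Set E.Point)).Δ < 1 :=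
  sg_Δ_lt_of_isSingPt S.intCoeff_velu (S.isSingPt_velu φ hφ hR hpR)

end ZSetup

end Fermat.Agent.EMZ
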