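/-
Cluster E' (Mazur), seat MP3-zero (helper4), step Z6: the core statement in nodal normal form.

`E` over `Q̄` in nodal normal form at `A`, `Q ∈ E⁰` of odd prime order `p`, `v p = 1`,
`E' = veluCurve E ⟨Q⟩`.  Then `v c₄(E') = 1` and `v Δ(E') = v Δ(E) ^ p`.
-/
import Mathlib
import Fermat.Agent.E.MC.Zero.C4
import Fermat.Agent.E.MC.Zero.Sing
import Fermat.Agent.E.MC.Zero.ExistsR
import Fermat.Agent.E.MC.Zero.L1Gen
import Fermat.Agent.E.MC.Zero.DualQb

set_option autoImplicit false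
set_option linter.unusedSectionVars false
set_option linter.style.haveILetI false

open WeierstrassCurve WeierstrassCurve.Affine

namespace Fermat.Agent.EMZ

open Fermat.Agent.MultRed Fermat.Agent.EllRed Fermat.Agent.EV Fermat.Agent.EVC
  Fermat.Agent.ES12 Fermat.Agent.ED Fermat.Agent.EU IsLocalRing S05H5 S05H65 S05H75

/-- **(MP3-zero), normal form.** -/
theorem zero_core (hV : VeluStatement) (hVx : VeluXAll Qb) {A : ValuationSubring Qb}
    {E : Affine Qb} {α β : Qb} {p : ℕ} {Q : E.Point} (S : ZSetup A E α β p Q) (hΔ : E.Δ ≠ 0) :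
    A.valuation (veluCurve E (AddSubgroup.zmultiples Q : Set E.Point)).c₄ = 1 ∧
      A.valuation (veluCurve E (AddSubgroup.zmultiples Q : Set E.Point)).Δ
        = A.valuation E.Δ ^ p := by
  classical
  have hp := S.hp
  haveI : Fact p.Prime := ⟨hp⟩
  have hCfin := S.finite_C
  have hCcard : Nat.card (AddSubgroup.zmultiples Q) = p := by
    rw [Nat.card_zmultiples, S.hQ]
  have hCodd : Odd (Nat.card (AddSubgroup.zmultiples Q)) := by
    rw [hCcard]; exact hp.odd_of_ne_two S.hp2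
  -- Vélu
  obtain ⟨hΔ', φ, hφsurj, hφker, hφX⟩ := hV Qb E hΔ (AddSubgroup.zmultiples Q) hCfin hCodd
  obtain ⟨n, d, hφnd⟩ := hasXMap_velu E (AddSubgroup.zmultiples Q) hCfin
    (hVx E hΔ _ hCfin hCodd) φ hφker hφX
  have hc₄' := S.veluCurve_c₄_unit
  -- a torsion point outside the zero component
  obtain ⟨R, hpR, hR⟩ := exists_torsion_isNodePt S.nf hΔ hp S.hvp
  have hsing := S.isSingPt_velu φ hφX hR hpR
  have hΔlt := S.veluCurve_Δ_lt φ hφX hR hpR
  have hφR : φ R ≠ 0 := by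
    intro h0
    have : R ∈ φ.ker := h0
    rw [hφker] at this
    exact S.notMem_of_isNodePt hR this
  have hpφ : p • φ R = 0 := by rw [← map_nsmul, hpR, map_zero]
  have hord : addOrderOf (φ R) = p := addOrderOf_eq_prime hpφ hφR
  -- (L1) on the Vélu model
  obtain ⟨hc₄'', hΔ''⟩ := l1_general hp S.hp2 A _ S.intCoeff_velu hΔ' hΔlt hc₄' (φ R) hord hsing
  -- (DUAL)
  have hker : Nat.card φ.ker = p := by rw [hφker]; exact hCcard
  have hdual := dual_general hp S.hp2 hV hVx E _ hΔ hΔ' φ hφsurj hker ⟨n, d, hφnd⟩ R hpR hφR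
  have hc₄ : A.valuation E.c₄ = 1 := by
    rw [c₄_of_normal E S.nf.a₃ S.nf.a₄, map_pow]
    have hb : E.b₂ = (α - β) ^ 2 := by
      have h1 := S.nf.hsum
      have h2 := S.nf.hprod
      simp only [WeierstrassCurve.b₂]
      have ha₁ : E.a₁ = -(α + β) := by rw [h1]; ring
      have ha₂ : E.a₂ = -(α * β) := by rw [h2]; ring
      rw [ha₁, ha₂]
      ring
    rw [hb, map_pow, S.nf.vαβ, one_pow, one_pow]
  have hv := congrArg A.valuation hdual
  rw [map_mul, map_mul, map_pow, map_pow, hc₄'', hc₄, one_pow, one_mul, one_mul] at hv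
  refine ⟨hc₄', ?_⟩
  rw [← hΔ'', hv]

end Fermat.Agent.EMZ
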