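/-
Cluster E' (Mazur), seat MP3-zero (helper4): the statement for integral models over `ℤ`.

`W / ℤ`, `ℓ ≠ p` a prime of multiplicative reduction, `A` a place of `Q̄` over `ℓ`, `Q` a point of
odd prime order `p` in the zero component at `A`.  Then the Vélu quotient `W / ⟨Q⟩` has
`v c₄ = 1` and `v Δ(W/⟨Q⟩) = v Δ(W) ^ p`.
-/
import Mathlib
import Fermat.Agent.E.MC.Zero.Core

set_option autoImplicit false
set_option linter.unusedSectionVars false
set_option linter.style.haveILetI false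

open WeierstrassCurve WeierstrassCurve.Affine

namespace Fermat.Agent.EMZ

open Fermat.Agent.MultRed Fermat.Agent.EllRed Fermat.Agent.EV Fermat.Agent.EVC
  Fermat.Agent.ES12 Fermat.Agent.ED Fermat.Agent.VarChange IsLocalRing S05H5 S05H65 S05H75

/-- **(MP3-zero)** from Vélu's theorem (V1) and the explicit `x`-map (V1x). -/
theorem zeroVal_of {p : ℕ} (hp : p.Prime) (hp2 : p ≠ 2) (hV : VeluStatement)
    (hVx : VeluXAll Qb) (W : WeierstrassCurve ℤ) (hΔ : W.Δ ≠ 0) (ℓ : ℕ) (hℓ : ℓ.Prime)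
    (hℓp : ℓ ≠ p) (hdvd : (ℓ : ℤ) ∣ W.Δ) (hc₄ : ¬ (ℓ : ℤ) ∣ W.c₄) (A : ValuationSubring Qb)
    (hA : A.LiesOverPrime ℓ) (Q : Pts W) (hQ : addOrderOf Q = p)
    (hz : W.InZeroComponentAt A Q) :
    A.valuation (veluCurve (CurveQb W) (AddSubgroup.zmultiples Q : Set (Pts W))).c₄ = 1 ∧
      A.valuation (veluCurve (CurveQb W) (AddSubgroup.zmultiples Q : Set (Pts W))).Δ
        = A.valuation ((W.Δ : ℤ) : Qb) ^ p := by
  have : Fact ℓ.Prime := ⟨hℓ⟩
  obtain ⟨r, t, α, β, hr, ht, nf, -⟩ := exists_nodalNF W hdvd hc₄ A hA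
  set E : Affine Qb := CurveQb W with hE
  set E' : Affine Qb := (transl r t) • E with hE'
  -- the point in the normal form
  set Q' : E'.Point := (vcEquiv (W₁ := E) (transl r t) rfl).symm Q with hQ'
  have hQQ' : vcHom (W₁ := E) (transl r t) rfl Q' = Q :=
    (vcEquiv (W₁ := E) (transl r t) rfl).apply_symm_apply Q
  have hordQ' : addOrderOf Q' = p := by
    rw [← addOrderOf_vcHom (W₁ := E) (transl r t) rfl Q', hQQ']
    exact hQ
  have hQ'0 : ¬ IsNodePt A.valuation Q' := by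
    intro hn
    have hs := isSingPt_vcHom_of_isNodePt A.valuation E hr nf Q' hn
    rw [hQQ'] at hs
    exact (not_isSingPt_iff_inE0v Q).mpr ((inZeroComponentAt_iff_inE0v W A Q).mp hz) hs
  have hvℓ : A.valuation ((ℓ : ℕ) : Qb) < 1 := A.mem_nonunits_iff.mp hA
  have hvp : A.valuation ((p : ℕ) : Qb) = 1 := by
    have h1 : ¬ (ℓ : ℤ) ∣ (p : ℤ) := by
      intro h
      have h2 : ℓ ∣ p := by exact_mod_cast h
      exact hℓp ((Nat.prime_dvd_prime_iff_eq hℓ hp).mp h2)
    have := v_intCast_eq_one A.valuation hℓ hvℓ h1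
    exact_mod_cast this
  have S : ZSetup A E' α β p Q' :=
    { nf := nf
      hp := hp
      hp2 := hp2
      hvp := hvp
      h2 := two_ne_zero
      hQ := hordQ'
      hQ0 := hQ'0 }
  have hΔE : E.Δ = ((W.Δ : ℤ) : Qb) := curveQb_Δ W
  have hΔE' : E'.Δ = E.Δ := by
    rw [hE', variableChange_Δ]
    have : (((transl r t).u⁻¹ : Qbˣ) : Qb) = 1 := by
      show (((1 : Qbˣ)⁻¹ : Qbˣ) : Qb) = 1
      simp
    rw [this, one_pow, one_mul]
  have hΔ0 : E'.Δ ≠ 0 := by
    rw [hΔE', hΔE]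
    exact_mod_cast hΔ
  obtain ⟨h1, h2⟩ := zero_core hV hVx S hΔ0
  -- transfer to the original model
  have hfin : ((AddSubgroup.zmultiples Q : Set E.Point)).Finite := by
    rw [finite_zmultiples, ← addOrderOf_pos_iff, hQ]
    exact hp.pos
  have hpre : (vcHom (W₁ := E) (transl r t) rfl) ⁻¹' (AddSubgroup.zmultiples Q : Set E.Point)
      = (AddSubgroup.zmultiples Q' : Set E'.Point) :=
    preimage_zmultiples (W₁ := E) (transl r t) rfl Q
  have hu : (((transl r t).u : Qbˣ) : Qb) = 1 := rfl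
  have e₄ := veluCurve_c₄_vc (W₁ := E) (transl r t) rfl _ hfin
  have eΔ := veluCurve_Δ_vc (W₁ := E) (transl r t) rfl _ hfin
  rw [hpre, hu, one_pow, one_mul] at e₄ eΔ
  constructor
  · show A.valuation (veluCurve E (AddSubgroup.zmultiples Q : Set E.Point)).c₄ = 1
    rw [e₄]
    exact h1
  · show A.valuation (veluCurve E (AddSubgroup.zmultiples Q : Set E.Point)).Δ = _
    rw [eΔ, h2, hΔE', hΔE]

end Fermat.Agent.EMZ
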