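import Fermat.Agent.Lib.MultRed.Char

/-!
# MP3-zero, leaf C4a: the `x`-coordinate on a nodal cubic in terms of the character

`w = s / t`, `s = y - α x`, `t = y - β x`:  `x (1 - w)² = b₂ w`.
-/

set_option autoImplicit false

open WeierstrassCurve

namespace Fermat.Agent.EMZ

open Fermat.Agent.MultRed

theorem nodeChar_x_formula {F : Type*} [Field F] [DecidableEq F] {W : WeierstrassCurve.Affine F}
    {α β : F} (nc : NodeCubic W α β) {x y : F} (h : W.Nonsingular x y) :
    x * (1 - nodeChar W α β (.some x y h)) ^ 2 = W.b₂ * nodeChar W α β (.some x y h) := by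
  have ht := nc.t_ne_zero h
  have hst := nc.toTangentForm.st_eq h.1
  rw [nc.a₆, add_zero] at hst
  have hb₂ : W.b₂ = (α - β) ^ 2 := by
    have h1 := nc.hsum
    have h2 := nc.hprod
    rw [WeierstrassCurve.b₂]
    have ha₁ : W.a₁ = -(α + β) := by rw [h1]; ring
    have ha₂ : W.a₂ = -(α * β) := by rw [h2]; ring
    rw [ha₁, ha₂]
    ring
  have e1 : 1 - (y - α * x) / (y - β * x) = ((α - β) * x) / (y - β * x) := by
    rw [eq_div_iff ht, sub_mul, one_mul, div_mul_cancel₀ _ ht]
    ring
  rw [nodeChar_some, hb₂, e1, div_pow, ← mul_div_assoc, ← mul_div_assoc,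
    div_eq_div_iff (pow_ne_zero 2 ht) ht]
  linear_combination (-(α - β) ^ 2 * (y - β * x)) * hst

end Fermat.Agent.EMZ
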